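import Fermat.Agent.MW.Hgt

/-!
# MW / SIEGEL leaf 1: a saturated integral basis of a rational subspace; its `p`-adic volumes are `1`.
-/

set_option autoImplicit false

namespace Fermat.Agent.MW

variable {ι : Type*} [Fintype ι] {r : ℕ}

/-- integral vectors as rational vectors. -/
def intVec (s : ι → ℤ) : ι → ℚ := fun i => (s i : ℚ)

/-- `intVec` as a `ℤ`-linear map. -/
def Lattice_intVecL : (ι → ℤ) →ₗ[ℤ] (ι → ℚ) where
  toFun := intVec
  map_add' a b := by
    funext i
    simp [intVec]
  map_smul' c a := by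
    funext i
    simp [intVec]

omit [Fintype ι] in
theorem Lattice_intVec_injective : Function.Injective (intVec (ι := ι)) := by
  intro a b hab
  funext i
  have h1 : ((a i : ℤ) : ℚ) = ((b i : ℤ) : ℚ) := congrFun hab i
  exact_mod_cast h1

omit [Fintype ι] in
theorem Lattice_intVec_sum {n : ℕ} (c : Fin n → ℤ) (u : Fin n → ι → ℤ) :
    intVec (∑ i, c i • u i) = ∑ i, (c i : ℚ) • intVec (u i) := by
  funext k
  simp [intVec, Finset.sum_apply]

/-- `W ∩ ℤ^ι` has a `ℤ`-basis with `r` elements, which is a `ℚ`-basis of `W`.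
(`Λ = Submodule.comap` of `W` (restricted to `ℤ`) under `ℤ^ι → ℚ^ι`; free of finite rank over the PID `ℤ`
(`Submodule.basisOfPid` / `Module.Free.chooseBasis`); clearing denominators shows `ℚ Λ = W`; a `ℤ`-independent family of
integral vectors is `ℚ`-independent.) -/
theorem exists_saturated_basis {t : Fin r → ι → ℚ} (ht : LinearIndependent ℚ t) :
    ∃ u : Fin r → ι → ℤ, LinearIndependent ℚ (fun i => intVec (u i)) ∧
      Submodule.span ℚ (Set.range fun i => intVec (u i)) = Submodule.span ℚ (Set.range t) ∧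
      ∀ s : ι → ℤ, intVec s ∈ Submodule.span ℚ (Set.range t) → ∃ c : Fin r → ℤ, s = ∑ i, c i • u i := by
  classical
  set W : Submodule ℚ (ι → ℚ) := Submodule.span ℚ (Set.range t) with hW
  set Λ : Submodule ℤ (ι → ℤ) := (W.restrictScalars ℤ).comap (Lattice_intVecL (ι := ι)) with hΛ
  have hmemΛ : ∀ s : ι → ℤ, s ∈ Λ ↔ intVec s ∈ W := fun s => Iff.rfl
  obtain ⟨n, bΛ⟩ := Submodule.basisOfPid (Pi.basisFun ℤ ι) Λ
  -- independence
  have hliZ : LinearIndependent ℤ (fun j => intVec ((bΛ j : ι → ℤ))) := by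
    have h1 := bΛ.linearIndependent.map' ((Lattice_intVecL (ι := ι)).comp Λ.subtype) (by
      rw [LinearMap.ker_eq_bot]
      exact Lattice_intVec_injective.comp Subtype.val_injective)
    exact h1
  have hliQ : LinearIndependent ℚ (fun j => intVec ((bΛ j : ι → ℤ))) :=
    (LinearIndependent.iff_fractionRing ℤ ℚ).1 hliZ
  -- saturation
  have hsat : ∀ s : ι → ℤ, intVec s ∈ W → ∃ c : Fin n → ℤ, s = ∑ i, c i • (bΛ i : ι → ℤ) := by
    intro s hs
    refine ⟨fun i => bΛ.repr ⟨s, hs⟩ i, ?_⟩
    have h1 := congrArg Λ.subtype (bΛ.sum_repr ⟨s, hs⟩)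
    rw [map_sum] at h1
    exact h1.symm
  -- span
  have hspan : Submodule.span ℚ (Set.range fun j => intVec ((bΛ j : ι → ℤ))) = W := by
    apply le_antisymm
    · rw [Submodule.span_le]
      rintro _ ⟨j, rfl⟩
      exact (bΛ j).2
    · rw [hW, Submodule.span_le]
      rintro _ ⟨i, rfl⟩
      obtain ⟨⟨N, hN⟩, hint⟩ :=
        IsLocalization.exist_integer_multiples_of_finite (nonZeroDivisors ℤ) (t i)
      choose s hs using hint
      have hN0 : (N : ℚ) ≠ 0 := by
        exact_mod_cast nonZeroDivisors.ne_zero hN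
      have hsv : intVec s = (N : ℚ) • t i := by
        funext k
        have := hs k
        simp only [zsmul_eq_mul] at this
        rw [Pi.smul_apply, smul_eq_mul, ← this]
        rfl
      have hsW : intVec s ∈ W := by
        rw [hsv]
        exact W.smul_mem _ (Submodule.subset_span ⟨i, rfl⟩)
      obtain ⟨c, hc⟩ := hsat s hsW
      have hti : t i = (N : ℚ)⁻¹ • intVec s := by
        rw [hsv, smul_smul, inv_mul_cancel₀ hN0, one_smul]
      show t i ∈ Submodule.span ℚ (Set.range fun j => intVec ((bΛ j : ι → ℤ)))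
      rw [hti, hc]
      apply Submodule.smul_mem
      have h2 : intVec (∑ i, c i • (bΛ i : ι → ℤ)) =
          ∑ i, (c i : ℚ) • intVec ((bΛ i : ι → ℤ)) := Lattice_intVec_sum c _
      rw [h2]
      exact Submodule.sum_mem _ fun j _ => Submodule.smul_mem _ _ (Submodule.subset_span ⟨j, rfl⟩)
  -- the rank
  have hn : n = r := by
    have h1 := finrank_span_eq_card hliQ
    have h2 := finrank_span_eq_card ht
    rw [hspan, Fintype.card_fin] at h1
    rw [Fintype.card_fin] at h2
    rw [← h1, ← h2]
  subst hn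
  exact ⟨fun j => (bΛ j : ι → ℤ), hliQ, hspan, hsat⟩

/-- The minors of a saturated basis are coprime: if `p` divides all of them, `u mod p` is linearly dependent over
`ZMod p` (`vol_pos`/`exists_minor_ne_zero` over the field `ZMod p`): `∑ c i • u i = p • s`, `c ≢ 0 mod p`; then `s ∈ W ∩ ℤ^ι`,
`s = ∑ d i • u i`, `c = p d`: contradiction. -/
theorem vol_padic_eq_one {u : Fin r → ι → ℤ} (hu : LinearIndependent ℚ (fun i => intVec (u i)))
    (hsat : ∀ s : ι → ℤ, intVec s ∈ Submodule.span ℚ (Set.range fun i => intVec (u i)) →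
      ∃ c : Fin r → ℤ, s = ∑ i, c i • u i) (p : Nat.Primes) :
    vol (qabv (some p)) (fun i => intVec (u i)) = 1 := by
  classical
  have hp : Fact (p : ℕ).Prime := ⟨p.2⟩
  have hminor : ∀ I : Fin r → ι, Matrix.det (Matrix.of fun i j => intVec (u i) (I j)) =
      ((Matrix.det (Matrix.of fun i j => u i (I j)) : ℤ) : ℚ) := by
    intro I
    have h1 := (Int.castRingHom ℚ).map_det (Matrix.of fun i j => u i (I j))
    rw [eq_intCast] at h1
    rw [h1]
    rfl
  -- independence mod `p`
  have hli : LinearIndependent (ZMod p) (fun i => fun k => ((u i k : ℤ) : ZMod p)) := by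
    rw [Fintype.linearIndependent_iff]
    intro g hg
    set c : Fin r → ℤ := fun i => ((g i).val : ℤ) with hc
    have hcg : ∀ i, ((c i : ℤ) : ZMod p) = g i := by
      intro i
      simp [hc]
    have hdvd : ∀ k, ((p : ℕ) : ℤ) ∣ ∑ i, c i * u i k := by
      intro k
      rw [← ZMod.intCast_zmod_eq_zero_iff_dvd]
      have h1 := congrFun hg k
      simp only [Finset.sum_apply, Pi.smul_apply, smul_eq_mul, Pi.zero_apply] at h1
      rw [← h1]
      push_cast
      exact Finset.sum_congr rfl fun i _ => by rw [hcg]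
    choose s hs using hdvd
    have hp0 : ((p : ℕ) : ℚ) ≠ 0 := by
      exact_mod_cast hp.out.ne_zero
    have hsQ : ∀ k, ∑ i, (c i : ℚ) * (u i k : ℚ) = ((p : ℕ) : ℚ) * (s k : ℚ) := by
      intro k
      exact_mod_cast hs k
    have hsv : intVec s = (((p : ℕ) : ℚ))⁻¹ • ∑ i, (c i : ℚ) • intVec (u i) := by
      funext k
      simp only [intVec, Pi.smul_apply, Finset.sum_apply, smul_eq_mul]
      rw [hsQ k, inv_mul_cancel_left₀ hp0]
    have hsW : intVec s ∈ Submodule.span ℚ (Set.range fun i => intVec (u i)) := by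
      rw [hsv]
      exact Submodule.smul_mem _ _ (Submodule.sum_mem _ fun j _ =>
        Submodule.smul_mem _ _ (Submodule.subset_span ⟨j, rfl⟩))
    obtain ⟨d, hd⟩ := hsat s hsW
    have hzero : ∑ i, ((c i : ℚ) - ((p : ℕ) : ℚ) * (d i : ℚ)) • intVec (u i) = 0 := by
      have h1 : intVec s = ∑ i, (d i : ℚ) • intVec (u i) := by
        rw [hd]
        exact Lattice_intVec_sum d u
      have h2 : ∑ i, (c i : ℚ) • intVec (u i) = ((p : ℕ) : ℚ) • intVec s := by
        rw [hsv, smul_smul, mul_inv_cancel₀ hp0, one_smul]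
      simp only [sub_smul, Finset.sum_sub_distrib, mul_smul]
      rw [← Finset.smul_sum, ← h1, h2, sub_self]
    have h3 := Fintype.linearIndependent_iff.1 hu _ hzero
    intro i
    have h4 : c i = ((p : ℕ) : ℤ) * d i := by
      have := h3 i
      rw [sub_eq_zero] at this
      exact_mod_cast this
    rw [← hcg i, h4]
    simp
  obtain ⟨I, hI⟩ := Vol.exists_minor_ne_zero hli
  have hI' : ¬ ((p : ℕ) : ℤ) ∣ Matrix.det (Matrix.of fun i j => u i (I j)) := by
    rw [← ZMod.intCast_zmod_eq_zero_iff_dvd]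
    intro h0
    apply hI
    have h1 := (Int.castRingHom (ZMod p)).map_det (Matrix.of fun i j => u i (I j))
    rw [eq_intCast, h0] at h1
    rw [h1]
    rfl
  apply le_antisymm
  · refine vol_le _ zero_le_one fun J => ?_
    rw [hminor]
    exact qabv_int_le_one p _
  · refine le_trans (le_of_eq ?_) (le_vol _ _ I)
    rw [hminor, qabv_some, (padicNorm.int_eq_one_iff _).2 hI']
    simp

/-- Hence the height is the logarithm of the archimedean volume. -/
theorem hvol_saturated {u : Fin r → ι → ℤ} (hu : LinearIndependent ℚ (fun i => intVec (u i)))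
    (hsat : ∀ s : ι → ℤ, intVec s ∈ Submodule.span ℚ (Set.range fun i => intVec (u i)) →
      ∃ c : Fin r → ℤ, s = ∑ i, c i • u i) :
    hvol (fun i => intVec (u i)) = Real.log (vol (qabv none) (fun i => intVec (u i))) := by
  rw [hvol, finsum_eq_single _ (none : Plc)]
  intro v hv
  match v with
  | none => exact absurd rfl hv
  | some p => rw [vol_padic_eq_one hu hsat p, Real.log_one]

end Fermat.Agent.MW
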