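import Fermat.Agent.MW.Siegel.Pigeon

/-!
# MW / SIEGEL : Siegel's lemma with respect to the height of the subspace.
-/

set_option autoImplicit false

namespace Fermat.Agent.MW

variable {ι : Type*} [Fintype ι] {r : ℕ}

/-- **Siegel's lemma** (Bombieri-Vaaler shape, elementary constant): a rational subspace `W` of dimension `r ≥ 1`
contains a nonzero vector `s` with `r h(s) ≤ H(W) + r log r`. -/
theorem siegel (hr : 0 < r) {t : Fin r → ι → ℚ} (ht : LinearIndependent ℚ t) :
    ∃ s ∈ Submodule.span ℚ (Set.range t), s ≠ 0 ∧ (r : ℝ) * hgt s ≤ hvol t + r * Real.log r := by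
  obtain ⟨u, hu, hspan, hsat⟩ := exists_saturated_basis ht
  obtain ⟨c, hc, hle⟩ := exists_small_vector hr hu
  have hsat' : ∀ s : ι → ℤ, intVec s ∈ Submodule.span ℚ (Set.range fun i => intVec (u i)) →
      ∃ c : Fin r → ℤ, s = ∑ i, c i • u i := by
    intro s hs
    exact hsat s (hspan ▸ hs)
  have hH : hvol t = Real.log (vol (qabv none) (fun i => intVec (u i))) := by
    rw [← hvol_saturated hu hsat']
    exact (hvol_eq_of_span_eq ht hu hspan).symm
  have hsum : intVec (∑ i, c i • u i) = ∑ i, (c i : ℚ) • intVec (u i) := by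
    funext k
    simp [intVec, Finset.sum_apply]
  have hne : intVec (∑ i, c i • u i) ≠ 0 := by
    intro h0
    rw [hsum] at h0
    have := (Fintype.linearIndependent_iff.mp hu) (fun i => (c i : ℚ)) h0
    exact hc (funext fun i => by exact_mod_cast this i)
  refine ⟨intVec (∑ i, c i • u i), ?_, hne, ?_⟩
  · rw [← hspan, hsum]
    exact Submodule.sum_mem _ fun i _ => Submodule.smul_mem _ _ (Submodule.subset_span ⟨i, rfl⟩)
  · have h1 : hgt (intVec (∑ i, c i • u i)) ≤
        Real.log (nrm (qabv none) (intVec (∑ i, c i • u i))) :=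
      hgt_le_of_int hne fun i => ⟨_, rfl⟩
    have hr' : (0 : ℝ) ≤ r := Nat.cast_nonneg r
    calc (r : ℝ) * hgt (intVec (∑ i, c i • u i))
        ≤ r * Real.log (nrm (qabv none) (intVec (∑ i, c i • u i))) :=
          mul_le_mul_of_nonneg_left h1 hr'
      _ ≤ hvol t + r * Real.log r := by rw [hH]; exact hle

end Fermat.Agent.MW
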