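import Fermat.Agent.MW.Siegel.Lattice

/-!
# MW / SIEGEL leaf 2: the pigeonhole argument.

`u : Fin r → ι → ℤ` independent, `I` a column choice with `D = |det (u i (I j))|` maximal (`= vol_∞ u`), `M = (u i (I j))`.
The subgroup `ℤ^r M ⊆ ℤ^r` has index `D` (`Submodule.natAbs_det_equiv`,
Mathlib/LinearAlgebra/FreeModule/Finite/CardQuotient.lean).  Let `B = ⌊D^(1/r)⌋`, so `(B+1)^r > D`: two distinct points `b, b'` of the
box `{0..B}^r` are congruent: `b - b' = c M`, `c ∈ ℤ^r`, `c ≠ 0`.  `s = ∑ c i • u i = (b - b') (M⁻¹ u)`, and the entries of `M⁻¹ u` have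
absolute value `≤ 1` (Cramer + maximality of `D`, as in `exists_echelon`).  So `|s k| ≤ r B ≤ r D^(1/r)`.
-/

set_option autoImplicit false

namespace Fermat.Agent.MW

variable {ι : Type*} [Fintype ι] {r : ℕ}

set_option linter.unusedVariables false in
/-- Pigeonhole in `ℤ^r / ℤ^r M`. -/
theorem exists_small_in_image (hr : 0 < r) (M : Matrix (Fin r) (Fin r) ℤ) (hM : M.det ≠ 0) (B : ℕ)
    (hB : M.det.natAbs < (B + 1) ^ r) :
    ∃ c : Fin r → ℤ, c ≠ 0 ∧ ∀ j, |Matrix.vecMul c M j| ≤ (B : ℤ) := by
  classical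
  let L : (Fin r → ℤ) →ₗ[ℤ] (Fin r → ℤ) := Matrix.toLin' M.transpose
  have hL : ∀ c, L c = Matrix.vecMul c M := by
    intro c
    show M.transpose.mulVec c = _
    rw [Matrix.mulVec_transpose]
  have hinj : Function.Injective L := by
    rw [← LinearMap.ker_eq_bot, LinearMap.ker_eq_bot']
    intro c hc
    rw [hL] at hc
    exact Matrix.eq_zero_of_vecMul_eq_zero hM hc
  let N : Submodule ℤ (Fin r → ℤ) := LinearMap.range L
  let e : (Fin r → ℤ) ≃ₗ[ℤ] N := LinearEquiv.ofInjective L hinj
  have hcard : M.det.natAbs = Nat.card ((Fin r → ℤ) ⧸ N) := by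
    rw [← Submodule.natAbs_det_equiv N e]
    congr 1
    have : N.subtype ∘ₗ AddMonoidHom.toIntLinearMap ((e : (Fin r → ℤ) →+ N)) = L := by
      ext c j
      rfl
    rw [this, LinearMap.det_toLin', Matrix.det_transpose]
  have hne : Nat.card ((Fin r → ℤ) ⧸ N) ≠ 0 := by
    rw [← hcard]
    exact Int.natAbs_ne_zero.mpr hM
  have hfin : Finite ((Fin r → ℤ) ⧸ N) := Nat.finite_of_card_ne_zero hne
  have : Fintype ((Fin r → ℤ) ⧸ N) := Fintype.ofFinite _
  let f : (Fin r → Fin (B + 1)) → ((Fin r → ℤ) ⧸ N) := fun b => Submodule.Quotient.mk (fun j => ((b j : ℕ) : ℤ))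
  obtain ⟨b, b', hbb, hf⟩ := Fintype.exists_ne_map_eq_of_card_lt f (by
    rw [← Nat.card_eq_fintype_card, ← hcard]
    simpa using hB)
  have hmem : (fun j => ((b j : ℕ) : ℤ)) - (fun j => ((b' j : ℕ) : ℤ)) ∈ N :=
    (Submodule.Quotient.eq N).mp hf
  obtain ⟨c, hc⟩ := hmem
  refine ⟨c, ?_, ?_⟩
  · rintro rfl
    rw [map_zero] at hc
    apply hbb
    funext j
    have := congrFun hc j
    simp only [Pi.zero_apply, Pi.sub_apply] at this
    apply Fin.ext
    omega
  · intro j
    rw [← hL, hc]
    simp only [Pi.sub_apply]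
    have h1 := (b j).2
    have h2 := (b' j).2
    rw [abs_le]
    constructor <;> omega

omit [Fintype ι] in
/-- the rational minor is the cast of the integral minor. -/
theorem Pigeon.det_intVec (u : Fin r → ι → ℤ) (I : Fin r → ι) :
    Matrix.det (Matrix.of fun i j => intVec (u i) (I j)) =
      ((Matrix.det (Matrix.of fun i j => u i (I j)) : ℤ) : ℚ) := by
  have h := (Int.castRingHom ℚ).map_det (Matrix.of fun i j => u i (I j))
  rw [eq_intCast] at h
  rw [h]
  rfl

omit [Fintype ι] in
/-- integral Cramer: `s k * det M = ∑ j, (c M) j * N j k`. -/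
theorem Pigeon.cramer (u : Fin r → ι → ℤ) (I : Fin r → ι) (c : Fin r → ℤ) (k : ι) :
    (∑ i, c i • u i) k * Matrix.det (Matrix.of fun i j => u i (I j)) =
      ∑ j, Matrix.vecMul c (Matrix.of fun i j => u i (I j)) j *
        Matrix.det (Matrix.of fun i j' => u i (Function.update I j k j')) := by
  classical
  set M : Matrix (Fin r) (Fin r) ℤ := Matrix.of fun i j => u i (I j) with hM
  have hN : ∀ j, Matrix.det (Matrix.of fun i j' => u i (Function.update I j k j')) =
      Matrix.cramer M (fun i => u i k) j := by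
    intro j
    rw [Matrix.cramer_apply]
    congr 1
    ext i j'
    by_cases h : j' = j
    · subst h
      simp
    · simp [Matrix.updateCol_ne h, Function.update_of_ne h, hM]
  have hcr := Matrix.mulVec_cramer M (fun i => u i k)
  have h1 : ∀ i, u i k * M.det = ∑ j, M i j * Matrix.cramer M (fun i => u i k) j := by
    intro i
    have := congrFun hcr i
    simp only [Matrix.mulVec, dotProduct, Pi.smul_apply, smul_eq_mul] at this
    rw [this, mul_comm]
  simp only [hN, Finset.sum_apply, Pi.smul_apply, smul_eq_mul, Finset.sum_mul, mul_assoc, h1,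
    Matrix.vecMul, dotProduct, Finset.mul_sum]
  rw [Finset.sum_comm]

theorem exists_small_vector (hr : 0 < r) {u : Fin r → ι → ℤ}
    (hu : LinearIndependent ℚ (fun i => intVec (u i))) :
    ∃ c : Fin r → ℤ, c ≠ 0 ∧
      (r : ℝ) * Real.log (nrm (qabv none) (intVec (∑ i, c i • u i))) ≤
        Real.log (vol (qabv none) (fun i => intVec (u i))) + r * Real.log r := by
  classical
  obtain ⟨I₀, hI₀⟩ := Vol.exists_minor_ne_zero hu
  have : Nonempty (Fin r → ι) := ⟨I₀⟩
  obtain ⟨I, hI⟩ := Finite.exists_max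
    (fun I : Fin r → ι => (Matrix.det (Matrix.of fun i j => u i (I j))).natAbs)
  set M : Matrix (Fin r) (Fin r) ℤ := Matrix.of fun i j => u i (I j) with hM
  have hdet : M.det ≠ 0 := by
    intro h
    have h1 := hI I₀
    simp only [h, Int.natAbs_zero, Nat.le_zero_eq, Int.natAbs_eq_zero] at h1
    apply hI₀
    rw [Pigeon.det_intVec, h1]
    simp
  set D : ℕ := M.det.natAbs with hD
  have hDpos : 0 < D := Int.natAbs_pos.mpr hdet
  have hex : ∃ B : ℕ, D < (B + 1) ^ r := ⟨D, by
    calc D < D + 1 := Nat.lt_succ_self D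
      _ = (D + 1) ^ 1 := (pow_one _).symm
      _ ≤ (D + 1) ^ r := Nat.pow_le_pow_right (Nat.succ_pos D) hr⟩
  set B : ℕ := Nat.find hex with hBdef
  have hB1 : D < (B + 1) ^ r := Nat.find_spec hex
  have hB2 : B ^ r ≤ D := by
    rcases Nat.eq_zero_or_pos B with h0 | hpos
    · rw [h0, zero_pow hr.ne']
      exact Nat.zero_le _
    · have h1 := Nat.find_min hex (m := B - 1) (by omega)
      rw [not_lt, Nat.sub_add_cancel hpos] at h1
      exact h1
  obtain ⟨c, hc0, hc⟩ := exists_small_in_image hr M hdet B hB1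
  refine ⟨c, hc0, ?_⟩
  have hs : ∀ k, |(∑ i, c i • u i) k| ≤ (r : ℤ) * B := by
    intro k
    have h1 := Pigeon.cramer u I c k
    have h2 : |(∑ i, c i • u i) k| * |M.det| ≤ (r : ℤ) * B * |M.det| := by
      rw [← abs_mul, h1]
      calc |∑ j, Matrix.vecMul c M j *
              Matrix.det (Matrix.of fun i j' => u i (Function.update I j k j'))|
          ≤ ∑ j, |Matrix.vecMul c M j *
              Matrix.det (Matrix.of fun i j' => u i (Function.update I j k j'))| :=
            Finset.abs_sum_le_sum_abs _ _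
        _ ≤ ∑ _j : Fin r, (B : ℤ) * |M.det| := Finset.sum_le_sum (fun j _ => by
            rw [abs_mul]
            refine mul_le_mul (hc j) ?_ (abs_nonneg _) (by positivity)
            have h3 := hI (Function.update I j k)
            rw [Int.abs_eq_natAbs, Int.abs_eq_natAbs]
            exact_mod_cast h3)
        _ = (r : ℤ) * B * |M.det| := by simp [mul_assoc]
    exact le_of_mul_le_mul_right h2 (abs_pos.mpr hdet)
  have hnrm : nrm (qabv none) (intVec (∑ i, c i • u i)) ≤ (r : ℝ) * B := by
    refine nrm_le _ (by positivity) (fun k => ?_)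
    rw [qabv_none]
    unfold intVec
    rw [Rat.cast_intCast, ← Int.cast_abs]
    exact_mod_cast hs k
  have hvol : (D : ℝ) ≤ vol (qabv none) (fun i => intVec (u i)) := by
    have h1 := le_vol (qabv none) (fun i => intVec (u i)) I
    rw [Pigeon.det_intVec, qabv_none, Rat.cast_intCast, ← Int.cast_abs, Int.abs_eq_natAbs,
      Int.cast_natCast] at h1
    exact h1
  have hD1 : (1 : ℝ) ≤ D := by exact_mod_cast hDpos
  have hr1 : (1 : ℝ) ≤ r := by exact_mod_cast hr
  rcases (nrm_nonneg (qabv none) (intVec (∑ i, c i • u i))).eq_or_lt with h0 | hpos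
  · rw [← h0, Real.log_zero, mul_zero]
    have h1 : 0 ≤ Real.log (vol (qabv none) (fun i => intVec (u i))) :=
      Real.log_nonneg (hD1.trans hvol)
    have h2 : 0 ≤ (r : ℝ) * Real.log r := mul_nonneg (by positivity) (Real.log_nonneg hr1)
    linarith
  · have hrB : 0 < (r : ℝ) * B := lt_of_lt_of_le hpos hnrm
    have hBpos : 0 < (B : ℝ) := by
      by_contra h
      have h1 : (B : ℝ) = 0 := le_antisymm (not_lt.mp h) (Nat.cast_nonneg _)
      rw [h1, mul_zero] at hrB
      exact lt_irrefl _ hrB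
    have h1 : Real.log (nrm (qabv none) (intVec (∑ i, c i • u i))) ≤
        Real.log r + Real.log B := by
      rw [← Real.log_mul (by positivity) hBpos.ne']
      exact Real.log_le_log hpos hnrm
    have h2 : (r : ℝ) * Real.log B ≤ Real.log (vol (qabv none) (fun i => intVec (u i))) := by
      rw [← Real.log_pow]
      apply Real.log_le_log (by positivity)
      calc (B : ℝ) ^ r ≤ D := by exact_mod_cast hB2
        _ ≤ _ := hvol
    calc (r : ℝ) * Real.log (nrm (qabv none) (intVec (∑ i, c i • u i)))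
        ≤ (r : ℝ) * (Real.log r + Real.log B) := mul_le_mul_of_nonneg_left h1 (by positivity)
      _ = (r : ℝ) * Real.log B + r * Real.log r := by ring
      _ ≤ _ := by linarith

end Fermat.Agent.MW
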